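/-
P11 / CurveP (helper5): characteristic-free part of `Lib/Curve/Hurwitz.lean`: existence of places,
poles and zeros of the separating generator, regularity of `dx` away from the poles of `x`.
(The tame Riemann-Hurwitz count `degree_canonical` of the original is NOT ported: in
characteristic `p` the degree of a canonical divisor comes from `RiemannRoch.degree_divDiff`.)
-/
import Mathlib
import Fermat.Agent.Lib.CurveP.Global
import Fermat.Agent.Lib.CurveP.Local

set_option autoImplicit false
set_option linter.unusedSectionVars false
set_option linter.style.haveILetI false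

namespace Fermat.Agent.CurveP

open Fermat.Agent.Curve

open AlgebraicCurve KaehlerDifferential IntermediateField PlaceAux

variable {K F : Type*} [Field K] [Field F] [Algebra K F] [IsAlgClosed K]

/-- a function field has a place -/
theorem exists_place {x : F} (hx : IsFunctionFieldGen K F x)
    [Algebra.IsSeparable (IntermediateField.adjoin K {x}) F] : Nonempty (Place K F) := by
  by_contra hne
  rw [not_nonempty_iff] at hne
  have h := sum_ord_poles hx
  have h0 : ∑ᶠ v ∈ {v : Place K F | v.ord x < 0}, - v.ord x = 0 := by
    rw [finsum_mem_def]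
    apply finsum_eq_zero_of_forall_eq_zero
    intro v
    exact (hne.false v).elim
  rw [h0] at h
  have hpos : 0 < Module.finrank (IntermediateField.adjoin K {x}) F := by
    haveI := hx.finite
    exact Module.finrank_pos
  omega

/-- the coefficient of a nonzero differential is nonzero -/
theorem differentialCoeff_ne_zero_of_ne_zero {x : F} (hx : IsFunctionFieldGen K F x)
    [Algebra.IsSeparable (IntermediateField.adjoin K {x}) F] (v : Place K F)
    {ω : Ω[F⁄K]} (hω : ω ≠ 0) : v.differentialCoeff ω ≠ 0 := by
  haveI := dCoordGenerates hx v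
  intro h0
  have h1 := v.differentialCoeff_smul_dCoord ω
  rw [h0, zero_smul] at h1
  exact hω h1.symm

/-- the coefficient of `dx` is nonzero for the separating generator `x` -/
theorem differentialCoeff_D_gen_ne_zero {x : F} (hx : IsFunctionFieldGen K F x)
    [Algebra.IsSeparable (IntermediateField.adjoin K {x}) F] (v : Place K F) :
    v.differentialCoeff (D K F x) ≠ 0 :=
  differentialCoeff_ne_zero_of_ne_zero hx v (D_gen_ne_zero hx v)

/-- every place is a pole of `x` or a zero of `x - a` for a unique `a` -/
theorem pole_or_zero {x : F} (hx : IsFunctionFieldGen K F x) (v : Place K F) :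
    v.ord x < 0 ∨ ∃ a : K, 0 < v.ord (x - algebraMap K F a) := by
  by_cases h : v.ord x < 0
  · exact Or.inl h
  right
  have hmem : x ∈ v.toValuationSubring := mem_of_ord_nonneg v (not_lt.mp h)
  obtain ⟨a, ha⟩ := exists_const_ordGE_one hx v hmem
  refine ⟨a, ?_⟩
  rcases (ordGE_iff v).mp ha with h0 | h0
  · exfalso
    apply hx.not_mem_range
    exact ⟨a, (sub_eq_zero.mp h0).symm⟩
  · omega

/-- `dx` is regular at every place which is not a pole of `x` -/
theorem ordDifferential_D_gen_nonneg {x : F} (hx : IsFunctionFieldGen K F x)
    [Algebra.IsSeparable (IntermediateField.adjoin K {x}) F] (v : Place K F)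
    (h : ¬ v.ord x < 0) : 0 ≤ v.ordDifferential (D K F x) := by
  rcases pole_or_zero hx v with h1 | ⟨a, ha⟩
  · exact absurd h1 h
  · have hne : x - algebraMap K F a ≠ 0 := by
      intro h0
      rw [h0, v.ord_zero] at ha
      exact lt_irrefl _ ha
    rcases le_ord_differentialCoeff_D hx v x a ha.le hne with h0 | ⟨h1, -⟩
    · exact absurd h0 (differentialCoeff_D_gen_ne_zero hx v)
    · rw [Place.ordDifferential]
      omega

/-- zeros of `x - a` and of `x - b` are disjoint for `a ≠ b`, and disjoint from the poles -/
theorem zero_unique {x : F} (v : Place K F) {a b : K}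
    (ha : 0 < v.ord (x - algebraMap K F a)) (hb : 0 < v.ord (x - algebraMap K F b)) : a = b := by
  have h1 : OrdGE v (x - algebraMap K F a) 1 := (ordGE_iff v).mpr (Or.inr (by omega))
  have h2 : OrdGE v (x - algebraMap K F b) 1 := (ordGE_iff v).mpr (Or.inr (by omega))
  exact const_unique_of_ordGE_one v h1 h2

theorem not_pole_of_zero {x : F} (v : Place K F) {a : K}
    (ha : 0 < v.ord (x - algebraMap K F a)) : ¬ v.ord x < 0 := by
  intro h
  have h1 : x - algebraMap K F a ∈ v.toValuationSubring := mem_of_ord_nonneg v ha.le
  have h2 := v.toValuationSubring.add_mem _ _ h1 (algebraMap_mem v a)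
  rw [sub_add_cancel] at h2
  have := ord_nonneg_of_mem v h2
  omega

/-- if `x - a` has `n = [F : K(x)]` distinct zeros then they are all simple -/
theorem ord_eq_one_of_ncard_eq {x : F} (hx : IsFunctionFieldGen K F x)
    [Algebra.IsSeparable (IntermediateField.adjoin K {x}) F] (a : K)
    (h : {v : Place K F | 0 < v.ord (x - algebraMap K F a)}.ncard
      = Module.finrank (IntermediateField.adjoin K {x}) F)
    (v : Place K F) (hv : 0 < v.ord (x - algebraMap K F a)) :
    v.ord (x - algebraMap K F a) = 1 := by
  have hfin := finite_zeros hx a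
  have hsum := sum_ord_zeros hx a
  rw [finsum_mem_eq_finite_toFinset_sum _ hfin] at hsum
  rw [Set.ncard_eq_toFinset_card _ hfin] at h
  by_contra hne
  have hlt : ∑ w ∈ hfin.toFinset, (1 : ℤ) < ∑ w ∈ hfin.toFinset, w.ord (x - algebraMap K F a) := by
    apply Finset.sum_lt_sum
    · intro w hw
      have : 0 < w.ord (x - algebraMap K F a) := by simpa using hw
      omega
    · refine ⟨v, by simpa using hv, ?_⟩
      omega
  rw [hsum, Finset.sum_const, nsmul_eq_mul, mul_one, h] at hlt
  exact lt_irrefl _ hlt

end Fermat.Agent.CurveP
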