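/-
P11 / CurveP (helper5): inseparable elements of a function field `F/K` of one variable over an
algebraically closed field `K` of characteristic `p`, with a separating generator `x`.

* `isSeparable_of_D_ne_zero`: if `dy ≠ 0` then `F / K(y)` is separable;
* `exists_pow_eq_of_D_eq_zero`: if `df = 0` then `f` is a `p`-th power;
* `exists_isSeparable_pow_eq`: every nonconstant `f` is a power `g ^ n` (`n = p ^ k`) of a
  separating element `g`;
* `hasPrincipalDivisors`: every nonzero element has a divisor, of degree zero.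
-/
import Mathlib
import Fermat.Agent.Lib.CurveP.Hurwitz

set_option autoImplicit false
set_option linter.unusedSectionVars false
set_option linter.style.haveILetI false

namespace Fermat.Agent.CurveP

open Fermat.Agent.Curve

open AlgebraicCurve KaehlerDifferential IntermediateField PlaceAux Polynomial

variable {K F : Type*} [Field K] [Field F] [Algebra K F]

/-- if `dy ≠ 0` then `y` is a separating element -/
theorem isSeparable_of_D_ne_zero [IsAlgClosed K] {x : F} (hx : IsFunctionFieldGen K F x)
    [Algebra.IsSeparable K⟮x⟯ F] {y : F} (hy : D K F y ≠ 0) : Algebra.IsSeparable K⟮y⟯ F := by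
  have hyK : y ∉ Set.range (algebraMap K F) := by
    rintro ⟨c, rfl⟩
    exact hy (Derivation.map_algebraMap _ c)
  have hgen := isFunctionFieldGen_of_notMem_range hx hyK
  haveI := hgen.finite
  have hspan : Submodule.span F {D K F y} = ⊤ :=
    span_D_eq_top_of_ne_zero (span_D_eq_top_of_isSeparable x) hy
  haveI : Algebra.FormallyUnramified K⟮y⟯ F := by
    refine ⟨⟨fun a b => ?_⟩⟩
    have key : ∀ ω : Ω[F⁄K⟮y⟯], ω = 0 := by
      intro ω
      obtain ⟨η, rfl⟩ := KaehlerDifferential.map_surjective K K⟮y⟯ F ω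
      have hη : η ∈ Submodule.span F {D K F y} := by rw [hspan]; trivial
      obtain ⟨c, rfl⟩ := Submodule.mem_span_singleton.mp hη
      rw [map_smul, KaehlerDifferential.map_D]
      have h1 : D K⟮y⟯ F (algebraMap F F y) = 0 :=
        Derivation.map_algebraMap (D K⟮y⟯ F) (⟨y, mem_adjoin_simple_self K y⟩ : K⟮y⟯)
      rw [h1, smul_zero]
    rw [key a, key b]
  exact Algebra.FormallyUnramified.isSeparable K⟮y⟯ F

/-- the differential of an element of `K(x)` is a `K(x)`-multiple of `dx` -/
theorem exists_mem_adjoin_D_eq_smul (x : F) {c : F} (hc : c ∈ K⟮x⟯) :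
    ∃ γ ∈ K⟮x⟯, D K F c = γ • D K F x := by
  induction hc using IntermediateField.adjoin_induction with
  | mem z hz =>
    rw [Set.mem_singleton_iff] at hz
    rw [hz]
    exact ⟨1, one_mem _, (one_smul _ _).symm⟩
  | algebraMap c =>
    exact ⟨0, zero_mem _, by rw [Derivation.map_algebraMap, zero_smul]⟩
  | add a b _ _ ha hb =>
    obtain ⟨γa, hγa, ha⟩ := ha
    obtain ⟨γb, hγb, hb⟩ := hb
    exact ⟨γa + γb, add_mem hγa hγb, by rw [map_add, ha, hb, add_smul]⟩
  | inv a hamem ha =>
    obtain ⟨γa, hγa, ha⟩ := ha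
    refine ⟨-a⁻¹ ^ 2 * γa, mul_mem (neg_mem (pow_mem (inv_mem hamem) 2)) hγa, ?_⟩
    rw [Derivation.leibniz_inv, ha, smul_smul]
  | mul a b hamem hbmem ha hb =>
    obtain ⟨γa, hγa, ha⟩ := ha
    obtain ⟨γb, hγb, hb⟩ := hb
    refine ⟨a * γb + b * γa, add_mem (mul_mem hamem hγb) (mul_mem hbmem hγa), ?_⟩
    rw [Derivation.leibniz, ha, hb, smul_smul, smul_smul, add_smul]

section CharP

variable (p : ℕ) [hp : Fact p.Prime] [CharP K p]

/-- `d (a ^ p) = 0` in characteristic `p` -/
theorem D_pow_char (a : F) : D K F (a ^ p) = 0 := by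
  haveI : CharP F p := charP_of_injective_algebraMap (algebraMap K F).injective p
  rw [Derivation.leibniz_pow, ← Nat.cast_smul_eq_nsmul F, CharP.cast_eq_zero, zero_smul]

/-- a rational function in `x` with vanishing differential is a `p`-th power -/
theorem exists_pow_eq_of_mem_adjoin_of_D_eq_zero [PerfectField K] {x : F}
    (hxt : Transcendental K x) (hDx : D K F x ≠ 0) {c : F} (hc : c ∈ K⟮x⟯)
    (h0 : D K F c = 0) : ∃ d : F, d ∈ K⟮x⟯ ∧ c = d ^ p := by
  obtain ⟨r, s, rfl⟩ := (mem_adjoin_simple_iff K c).mp hc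
  by_cases hs : aeval x s = 0
  · refine ⟨0, zero_mem _, ?_⟩
    rw [hs, div_zero, zero_pow hp.out.ne_zero]
  set N : K[X] := r * s ^ (p - 1) with hNdef
  have hpp : p - 1 + 1 = p := Nat.sub_add_cancel hp.out.pos
  have hN : aeval x N = (aeval x r / aeval x s) * (aeval x s) ^ p := by
    rw [hNdef, map_mul, map_pow, div_mul_eq_mul_div, eq_div_iff hs, mul_assoc, ← pow_succ, hpp]
  have hDN : D K F (aeval x N) = 0 := by
    rw [hN, Derivation.leibniz, h0, smul_zero, D_pow_char, smul_zero, add_zero]
  rw [Derivation.map_aeval] at hDN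
  have hder : aeval x (derivative N) = 0 := (smul_eq_zero.mp hDN).resolve_right hDx
  have hder0 : derivative N = 0 := by
    by_contra h
    exact hxt ⟨_, h, hder⟩
  have hexp : expand K p (contract p N) = N := expand_contract p hder0 hp.out.ne_zero
  set N2 : K[X] := (contract p N).map ((frobeniusEquiv K p).symm : K →+* K) with hN2def
  have hN2 : N2 ^ p = N := by
    rw [← map_frobenius_expand, map_expand, hN2def, Polynomial.map_map]
    have hcomp : (frobenius K p).comp ((frobeniusEquiv K p).symm : K →+* K) = RingHom.id K := by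
      ext a
      simp
    rw [hcomp, Polynomial.map_id, hexp]
  refine ⟨aeval x N2 / aeval x s, (mem_adjoin_simple_iff K _).mpr ⟨N2, s, rfl⟩, ?_⟩
  rw [div_pow, ← map_pow, hN2, hN, mul_div_assoc, div_self (pow_ne_zero p hs), mul_one]

/-- **the kernel of `d` is `F ^ p`** -/
theorem exists_pow_eq_of_D_eq_zero [PerfectField K] {x : F} (hx : IsFunctionFieldGen K F x)
    [Algebra.IsSeparable K⟮x⟯ F] (hDx : D K F x ≠ 0) {f : F} (h0 : D K F f = 0) :
    ∃ g : F, f = g ^ p := by
  classical
  haveI := hx.finite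
  haveI : CharP F p := charP_of_injective_algebraMap (algebraMap K F).injective p
  haveI : CharP K⟮x⟯ p := charP_of_injective_algebraMap (algebraMap K K⟮x⟯).injective p
  haveI : ExpChar K⟮x⟯ p := ExpChar.prime hp.out
  let b := Module.finBasis K⟮x⟯ F
  have hli : LinearIndependent K⟮x⟯ (fun i => b i ^ p) := by
    have := b.linearIndependent.map_pow_expChar_pow_of_isSeparable p 1
    simpa using this
  have hsp : Submodule.span K⟮x⟯ (Set.range fun i => b i ^ p) = ⊤ := by
    have := Field.span_map_pow_expChar_pow_eq_top_of_isSeparable p 1 b.span_eq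
    simpa using this
  have hf : f ∈ Submodule.span K⟮x⟯ (Set.range fun i => b i ^ p) := by rw [hsp]; trivial
  obtain ⟨c, hc⟩ := (Submodule.mem_span_range_iff_exists_fun _).mp hf
  have hγ : ∀ i, ∃ γ ∈ K⟮x⟯, D K F ((c i : K⟮x⟯) : F) = γ • D K F x :=
    fun i => exists_mem_adjoin_D_eq_smul x (c i).2
  choose γ hγmem hγ using hγ
  have hD : D K F f = (∑ i, γ i * b i ^ p) • D K F x := by
    rw [← hc, map_sum, Finset.sum_smul]
    refine Finset.sum_congr rfl fun i _ => ?_
    rw [Algebra.smul_def, Derivation.leibniz, D_pow_char, smul_zero, zero_add]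
    have : algebraMap K⟮x⟯ F (c i) = ((c i : K⟮x⟯) : F) := rfl
    rw [this, hγ i, smul_smul, mul_comm]
  rw [h0] at hD
  have hsum0 : ∑ i, γ i * b i ^ p = 0 := (smul_eq_zero.mp hD.symm).resolve_right hDx
  have hsum : ∑ i, (⟨γ i, hγmem i⟩ : K⟮x⟯) • b i ^ p = 0 := by
    rw [← hsum0]
    refine Finset.sum_congr rfl fun i _ => ?_
    rw [Algebra.smul_def]
    rfl
  have hγ0 : ∀ i, γ i = 0 := by
    intro i
    have := Fintype.linearIndependent_iff.mp hli _ hsum i
    exact congrArg Subtype.val this
  have hd : ∀ i, ∃ d : F, d ∈ K⟮x⟯ ∧ ((c i : K⟮x⟯) : F) = d ^ p := fun i =>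
    exists_pow_eq_of_mem_adjoin_of_D_eq_zero p hx.transcendental hDx (c i).2
      (by rw [hγ i, hγ0 i, zero_smul])
  choose d hdmem hd using hd
  refine ⟨∑ i, d i * b i, ?_⟩
  rw [sum_pow_char, ← hc]
  refine Finset.sum_congr rfl fun i _ => ?_
  rw [mul_pow, ← hd i, Algebra.smul_def]
  rfl

end CharP

section Main

variable [IsAlgClosed K]

/-- **every nonconstant function is a power of a separating element** -/
theorem exists_isSeparable_pow_eq {x : F} (hx : IsFunctionFieldGen K F x)
    [Algebra.IsSeparable K⟮x⟯ F] {f : F} (hf : f ∉ Set.range (algebraMap K F)) :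
    ∃ (g : F) (n : ℕ), 0 < n ∧ f = g ^ n ∧ g ∉ Set.range (algebraMap K F) ∧
      Algebra.IsSeparable K⟮g⟯ F := by
  obtain ⟨q, hq⟩ := ExpChar.exists K
  rcases hq with _ | ⟨hprime⟩
  · -- characteristic zero
    refine ⟨f, 1, one_pos, (pow_one f).symm, hf, ?_⟩
    haveI := (isFunctionFieldGen_of_notMem_range hx hf).finite
    haveI : CharZero K⟮f⟯ :=
      charZero_of_injective_algebraMap (algebraMap K K⟮f⟯).injective
    infer_instance
  · -- characteristic `q`
    haveI : Fact q.Prime := ⟨hprime⟩
    haveI : CharP F q := charP_of_injective_algebraMap (algebraMap K F).injective q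
    obtain ⟨v⟩ := exists_place hx
    have hDx := D_gen_ne_zero hx v
    -- induction on `|ord_v (f - c)|`
    have main : ∀ N : ℕ, ∀ (f : F) (c : K), f ∉ Set.range (algebraMap K F) →
        v.ord (f - algebraMap K F c) ≠ 0 → (v.ord (f - algebraMap K F c)).natAbs = N →
        ∃ (g : F) (n : ℕ), 0 < n ∧ f = g ^ n ∧ g ∉ Set.range (algebraMap K F) ∧
          Algebra.IsSeparable K⟮g⟯ F := by
      intro N
      induction N using Nat.strong_induction_on with
      | _ N ih =>
        intro f c hf hord hN
        by_cases hsep : Algebra.IsSeparable K⟮f⟯ F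
        · exact ⟨f, 1, one_pos, (pow_one f).symm, hf, hsep⟩
        have hDf : D K F f = 0 := by
          by_contra h
          exact hsep (isSeparable_of_D_ne_zero hx h)
        obtain ⟨g₁, rfl⟩ := exists_pow_eq_of_D_eq_zero q hx hDx hDf
        have hg₁ : g₁ ∉ Set.range (algebraMap K F) := by
          rintro ⟨a, rfl⟩
          exact hf ⟨a ^ q, by rw [map_pow]⟩
        obtain ⟨c₁, hc₁⟩ := IsAlgClosed.exists_pow_nat_eq c hprime.pos
        have hsub : g₁ ^ q - algebraMap K F c = (g₁ - algebraMap K F c₁) ^ q := by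
          rw [sub_pow_char, ← map_pow, hc₁]
        have hne : g₁ - algebraMap K F c₁ ≠ 0 := by
          intro h
          exact hg₁ ⟨c₁, (sub_eq_zero.mp h).symm⟩
        have hord₁ : v.ord (g₁ ^ q - algebraMap K F c) = q * v.ord (g₁ - algebraMap K F c₁) := by
          rw [hsub, ← zpow_natCast, v.ord_zpow]
        have hne₁ : v.ord (g₁ - algebraMap K F c₁) ≠ 0 := by
          intro h
          rw [hord₁, h, mul_zero] at hord
          exact hord rfl
        have hlt : (v.ord (g₁ - algebraMap K F c₁)).natAbs < N := by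
          rw [← hN, hord₁, Int.natAbs_mul, Int.natAbs_natCast]
          have h1 : 0 < (v.ord (g₁ - algebraMap K F c₁)).natAbs := Int.natAbs_pos.mpr hne₁
          have h2 : 2 ≤ q := hprime.two_le
          nlinarith
        obtain ⟨g, n, hn, rfl, hg, hgsep⟩ := ih _ hlt g₁ c₁ hg₁ hne₁ rfl
        exact ⟨g, n * q, Nat.mul_pos hn hprime.pos, by rw [pow_mul], hg, hgsep⟩
    -- choice of the constant `c`
    by_cases hpole : v.ord f < 0
    · exact main _ f 0 hf (by rw [map_zero, sub_zero]; omega) rfl
    · have hmem : f ∈ v.toValuationSubring := mem_of_ord_nonneg v (not_lt.mp hpole)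
      obtain ⟨c, hc⟩ := exists_const_ordGE_one hx v hmem
      have hpos : 0 < v.ord (f - algebraMap K F c) := by
        rcases (ordGE_iff v).mp hc with h0 | h0
        · exact absurd ⟨c, (sub_eq_zero.mp h0).symm⟩ hf
        · omega
      exact main _ f c hf hpos.ne' rfl

/-- **every nonzero element of the function field has a divisor, of degree zero** -/
theorem hasPrincipalDivisors {x : F} (hx : IsFunctionFieldGen K F x)
    [Algebra.IsSeparable K⟮x⟯ F] : HasPrincipalDivisors K F :=
  hasPrincipalDivisors_of_forall_exists_pow hx fun _ hf => exists_isSeparable_pow_eq hx hf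

end Main

end Fermat.Agent.CurveP
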