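/-
P11 / CurveP (helper5): characteristic-free copy of `Lib/Curve/Adele.lean`.
Adeles (repartitions) of a function field `F/K`, as `K`-subspaces of the
ambient function space `Place K F → F`.  (We do not use the Prelude's `repartitions` subalgebra:
all spaces here are plain `Submodule K (Place K F → F)`, which keeps quotients and relative
dimensions easy to handle.)

* `Rep K F`        : the ambient space `Place K F → F`;
* `adeleAll K F`   : functions with finitely many poles (the adele space `A_F`);
* `adeleOf D`      : `A(D) = {α | ord_v (α v) ≥ -D v}`;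
* `adeleDiag K F`  : the constant functions (the diagonal copy of `F`);
* `repMul f`       : multiplication by `f : F` as a `K`-endomorphism of `Rep K F`;
* `H1 D`-like quotient `AdeleH1 D = A_F / (A(D) + F)` and `ell D = dim L(D)`, `genusR`.
-/
import Mathlib
import Fermat.Agent.Lib.CurveP.Insep

set_option autoImplicit false
set_option linter.unusedSectionVars false

namespace Fermat.Agent.CurveP

open Fermat.Agent.Curve

open AlgebraicCurve WithZero PlaceAux

variable (K F : Type*) [Field K] [Field F] [Algebra K F]

/-- the ambient space of all functions `Place K F → F` -/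
abbrev Rep : Type _ := Place K F → F

variable {K F}

/-- the set of poles of a function `Place K F → F` -/
def polesOf (α : Rep K F) : Set (Place K F) := {v | v.ord (α v) < 0}

theorem polesOf_add_subset (α β : Rep K F) : polesOf (α + β) ⊆ polesOf α ∪ polesOf β := by
  intro v hv
  simp only [polesOf, Set.mem_ofPred_eq, Set.mem_union, Pi.add_apply] at hv ⊢
  by_contra hcon
  push Not at hcon
  have h1 : α v ∈ v.toValuationSubring := mem_of_ord_nonneg v hcon.1
  have h2 : β v ∈ v.toValuationSubring := mem_of_ord_nonneg v hcon.2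
  have := ord_nonneg_of_mem v (v.toValuationSubring.add_mem _ _ h1 h2)
  omega

theorem polesOf_smul_subset (c : K) (α : Rep K F) : polesOf (c • α) ⊆ polesOf α := by
  intro v hv
  simp only [polesOf, Set.mem_ofPred_eq, Pi.smul_apply] at hv ⊢
  by_contra hcon
  push Not at hcon
  have h1 : α v ∈ v.toValuationSubring := mem_of_ord_nonneg v hcon
  have h2 : c • α v ∈ v.toValuationSubring := by
    rw [Algebra.smul_def]
    exact v.toValuationSubring.mul_mem _ _ (algebraMap_mem v c) h1
  have := ord_nonneg_of_mem v h2
  omega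

theorem polesOf_mul_subset (α β : Rep K F) : polesOf (α * β) ⊆ polesOf α ∪ polesOf β := by
  intro v hv
  simp only [polesOf, Set.mem_ofPred_eq, Set.mem_union, Pi.mul_apply] at hv ⊢
  by_contra hcon
  push Not at hcon
  have h1 : α v ∈ v.toValuationSubring := mem_of_ord_nonneg v hcon.1
  have h2 : β v ∈ v.toValuationSubring := mem_of_ord_nonneg v hcon.2
  have := ord_nonneg_of_mem v (v.toValuationSubring.mul_mem _ _ h1 h2)
  omega

variable (K F) in
/-- the adele space: functions with finitely many poles -/
def adeleAll : Submodule K (Rep K F) where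
  carrier := {α | (polesOf α).Finite}
  zero_mem' := by
    have : polesOf (0 : Rep K F) = ∅ := by
      ext v; simp [polesOf]
    show (polesOf (0 : Rep K F)).Finite
    rw [this]; exact Set.finite_empty
  add_mem' := fun {α β} hα hβ => (hα.union hβ).subset (polesOf_add_subset α β)
  smul_mem' := fun c α hα => hα.subset (polesOf_smul_subset c α)

theorem mem_adeleAll {α : Rep K F} : α ∈ adeleAll K F ↔ (polesOf α).Finite := Iff.rfl

theorem mul_mem_adeleAll {α β : Rep K F} (hα : α ∈ adeleAll K F) (hβ : β ∈ adeleAll K F) :
    α * β ∈ adeleAll K F :=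
  (hα.union hβ).subset (polesOf_mul_subset α β)

/-- `A(D)`: the adeles `α` with `ord_v (α v) ≥ - D v` for all `v` -/
def adeleOf (D : Divisor K F) : Submodule K (Rep K F) where
  carrier := {α | ∀ v : Place K F, v.adicValuation (α v) ≤ exp (D v)}
  zero_mem' := fun v => by simp
  add_mem' := fun {α β} hα hβ v => (Valuation.map_add _ _ _).trans (max_le (hα v) (hβ v))
  smul_mem' := fun c α hα v => by
    show v.adicValuation (c • α v) ≤ exp (D v)
    rw [Algebra.smul_def, map_mul]
    exact (mul_le_of_le_one_left' (v.adicValuation_algebraMap_le_one c)).trans (hα v)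

theorem mem_adeleOf {D : Divisor K F} {α : Rep K F} :
    α ∈ adeleOf D ↔ ∀ v : Place K F, v.adicValuation (α v) ≤ exp (D v) := Iff.rfl

theorem mem_adeleOf_iff {D : Divisor K F} {α : Rep K F} :
    α ∈ adeleOf D ↔ ∀ v : Place K F, α v = 0 ∨ -D v ≤ v.ord (α v) :=
  forall_congr' fun v => v.adicValuation_le_exp_iff

theorem mem_adeleOf_iff_ordGE {D : Divisor K F} {α : Rep K F} :
    α ∈ adeleOf D ↔ ∀ v : Place K F, OrdGE v (α v) (-D v) := by
  simp only [mem_adeleOf, OrdGE, neg_neg]

theorem adeleOf_mono {D D' : Divisor K F} (h : D ≤ D') : adeleOf D ≤ adeleOf D' :=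
  fun _ hα v => (hα v).trans (exp_le_exp.mpr (Finsupp.le_def.mp h v))

theorem adeleOf_le_adeleAll (D : Divisor K F) : adeleOf D ≤ adeleAll K F := by
  intro α hα
  refine D.support.finite_toSet.subset fun v hv => ?_
  rw [Finset.mem_coe, Finsupp.mem_support_iff]
  intro hD0
  simp only [polesOf, Set.mem_ofPred_eq] at hv
  rcases (mem_adeleOf_iff.mp hα) v with h | h
  · rw [h, v.ord_zero] at hv; exact lt_irrefl _ hv
  · rw [hD0] at h; omega

/-- `L(D) = A(D) ∩ F` -/
theorem mem_riemannRochSpace_iff_const {D : Divisor K F} {f : F} :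
    f ∈ riemannRochSpace D ↔ (fun _ => f : Rep K F) ∈ adeleOf D := Iff.rfl

variable (K F) in
/-- the constant functions: the diagonal copy of `F` in the adeles -/
def adeleDiag : Submodule K (Rep K F) :=
  LinearMap.range ((LinearMap.pi fun _ : Place K F => LinearMap.id) : F →ₗ[K] Rep K F)

theorem mem_adeleDiag {α : Rep K F} : α ∈ adeleDiag K F ↔ ∃ f : F, α = fun _ => f := by
  simp only [adeleDiag, LinearMap.mem_range]
  constructor
  · rintro ⟨f, rfl⟩; exact ⟨f, rfl⟩
  · rintro ⟨f, rfl⟩; exact ⟨f, rfl⟩

theorem const_mem_adeleDiag (f : F) : (fun _ => f : Rep K F) ∈ adeleDiag K F :=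
  mem_adeleDiag.mpr ⟨f, rfl⟩

/-- multiplication by `f : F` on `Place K F → F`, as a `K`-linear endomorphism -/
def repMul (f : F) : Module.End K (Rep K F) where
  toFun α := fun v => f * α v
  map_add' α β := by ext v; simp [mul_add]
  map_smul' c α := by ext v; simp [Algebra.smul_def, mul_left_comm]

@[simp] theorem repMul_apply (f : F) (α : Rep K F) (v : Place K F) : repMul f α v = f * α v := rfl

theorem repMul_mul (f g : F) : repMul (K := K) (f * g) = repMul f * repMul g := by
  ext α v; simp [mul_assoc]

theorem repMul_one : repMul (K := K) (F := F) 1 = 1 := by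
  ext α v; simp

theorem repMul_add (f g : F) : repMul (K := K) (f + g) = repMul f + repMul g := by
  ext α v; simp [add_mul]

theorem repMul_algebraMap (c : K) : repMul (K := K) (algebraMap K F c) = c • (1 : Module.End K (Rep K F)) := by
  ext α v; simp [Algebra.smul_def]

theorem repMul_commute (f g : F) : Commute (repMul (K := K) f) (repMul g) := by
  show repMul f * repMul g = repMul g * repMul f
  rw [← repMul_mul, ← repMul_mul, mul_comm]

theorem repMul_mem_adeleDiag (f : F) {α : Rep K F} (hα : α ∈ adeleDiag K F) :
    repMul f α ∈ adeleDiag K F := by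
  obtain ⟨g, rfl⟩ := mem_adeleDiag.mp hα
  exact mem_adeleDiag.mpr ⟨f * g, rfl⟩

section FunctionField

variable [IsAlgClosed K] {x : F} (hx : IsFunctionFieldGen K F x)
  [Algebra.IsSeparable (IntermediateField.adjoin K {x}) F]

include hx

/-- a function `f : F` has finitely many poles -/
theorem finite_poles_of (f : F) : {v : Place K F | v.ord f < 0}.Finite := by
  by_cases hf : f = 0
  · have : {v : Place K F | v.ord f < 0} = ∅ := by
      ext v; simp [hf]
    rw [this]; exact Set.finite_empty
  · obtain ⟨Df, hDf, -⟩ := (hasPrincipalDivisors hx).exists_divisor f hf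
    refine Df.support.finite_toSet.subset fun v hv => ?_
    simp only [Set.mem_ofPred_eq] at hv
    rw [Finset.mem_coe, Finsupp.mem_support_iff, hDf v]
    omega

/-- a function `f : F` has finitely many zeros -/
theorem finite_zeros_of (f : F) : {v : Place K F | 0 < v.ord f}.Finite := by
  have h := finite_poles_of hx f⁻¹
  refine h.subset fun v hv => ?_
  simp only [Set.mem_ofPred_eq, v.ord_inv] at hv ⊢
  omega

theorem adeleDiag_le_adeleAll : adeleDiag K F ≤ adeleAll K F := by
  intro α hα
  obtain ⟨f, rfl⟩ := mem_adeleDiag.mp hα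
  exact finite_poles_of hx f

theorem repMul_mem_adeleAll (f : F) {α : Rep K F} (hα : α ∈ adeleAll K F) :
    repMul f α ∈ adeleAll K F :=
  mul_mem_adeleAll (adeleDiag_le_adeleAll hx (const_mem_adeleDiag f)) hα

/-- multiplication by `f : F` on the adele space -/
noncomputable def adeleMul (f : F) : ↥(adeleAll K F) →ₗ[K] ↥(adeleAll K F) :=
  (repMul f).restrict fun _ hα => repMul_mem_adeleAll hx f hα

omit hx in
theorem adeleMul_apply (hx : IsFunctionFieldGen K F x) (f : F) (α : ↥(adeleAll K F))
    (v : Place K F) : (adeleMul hx f α : Rep K F) v = f * (α : Rep K F) v := rfl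

/-- the action of `F` on functionals on the adeles: `(f • lam) α = lam (f α)` -/
noncomputable def smulWeil (f : F) (lam : ↥(adeleAll K F) →ₗ[K] K) : ↥(adeleAll K F) →ₗ[K] K :=
  lam ∘ₗ adeleMul hx f

omit hx in
theorem smulWeil_apply (hx : IsFunctionFieldGen K F x) (f : F) (lam : ↥(adeleAll K F) →ₗ[K] K)
    (α : ↥(adeleAll K F)) : smulWeil hx f lam α = lam (adeleMul hx f α) := rfl

/-- the divisor of a nonzero function -/
noncomputable def divOf (f : F) : Divisor K F :=
  open Classical in
  if hf : f ≠ 0 then ((hasPrincipalDivisors hx).exists_divisor f hf).choose else 0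

theorem divOf_apply {f : F} (hf : f ≠ 0) (v : Place K F) : divOf hx f v = v.ord f := by
  rw [divOf, dif_pos hf]
  exact (((hasPrincipalDivisors hx).exists_divisor f hf).choose_spec).1 v

theorem degree_divOf (f : F) : Divisor.degree (divOf hx f) = 0 := by
  by_cases hf : f ≠ 0
  · rw [divOf, dif_pos hf]
    exact (((hasPrincipalDivisors hx).exists_divisor f hf).choose_spec).2
  · rw [divOf, dif_neg hf, map_zero]

end FunctionField

/-- `A(D) + F` -/
abbrev adeleSum (D : Divisor K F) : Submodule K (Rep K F) := adeleOf D ⊔ adeleDiag K F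

/-- `lam` is a Weil differential of level `D`: a `K`-linear functional on the adeles vanishing on
`A(D) + F`. -/
def IsWeilDiff (lam : ↥(adeleAll K F) →ₗ[K] K) (D : Divisor K F) : Prop :=
  ∀ α : ↥(adeleAll K F), (α : Rep K F) ∈ adeleSum D → lam α = 0

/-- `H¹(D) = A_F / (A(D) + F)` -/
abbrev AdeleH1 (D : Divisor K F) : Type _ :=
  ↥(adeleAll K F) ⧸ (adeleSum D).submoduleOf (adeleAll K F)

/-- `ℓ(D) = dim L(D)` -/
noncomputable def ell (D : Divisor K F) : ℕ := Module.finrank K ↥(riemannRochSpace D)

variable (K F) in
/-- the (Riemann) genus `g = dim H¹(0)` -/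
noncomputable def genusR : ℕ := Module.finrank K (AdeleH1 (0 : Divisor K F))

end Fermat.Agent.CurveP
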