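/-
P1 part C / RR-L (helper5): local residues of Kähler differentials of a function field at a place,
defined through Tate's abstract residue (`V = F`, `A = O_v`).

* `resPair v f g = res_v (f dg)`;
* `resPlace v : Ω[F⁄K] →ₗ[K] K` with `resPlace v (f • D g) = resPair v f g`;
* `resPlace_eq_zero_of_ordDifferential_nonneg`, `resPlace_ne_zero_of_ordDifferential_eq_neg_one`.
-/
import Mathlib
import Fermat.Agent.Lib.CurveP.Adele
import Fermat.Agent.Lib.Curve.Tate

set_option autoImplicit false
set_option linter.unusedSectionVars false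
set_option linter.style.haveILetI false

namespace Fermat.Agent.CurveP

open Fermat.Agent.Curve

open AlgebraicCurve KaehlerDifferential PlaceAux Tate

variable {K F : Type*} [Field K] [Field F] [Algebra K F]

/-! ### The dual `Hom_K(F, K)` as an `F`-module -/

/-- `Hom_K(F, K)` with `F` acting on the source: `(h • lam) f = lam (h * f)` -/
def DualF (K F : Type*) [Field K] [Field F] [Algebra K F] : Type _ := F →ₗ[K] K

namespace DualF

instance : AddCommGroup (DualF K F) := inferInstanceAs (AddCommGroup (F →ₗ[K] K))
instance : Module K (DualF K F) := inferInstanceAs (Module K (F →ₗ[K] K))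

/-- the underlying linear map -/
def toLin (lam : DualF K F) : F →ₗ[K] K := lam

/-- constructor -/
def ofLin (lam : F →ₗ[K] K) : DualF K F := lam

@[simp] theorem toLin_ofLin (lam : F →ₗ[K] K) : toLin (ofLin lam) = lam := rfl
@[simp] theorem toLin_add (a b : DualF K F) : toLin (a + b) = toLin a + toLin b := rfl
@[simp] theorem toLin_zero : toLin (0 : DualF K F) = 0 := rfl
@[simp] theorem toLin_smulK (c : K) (a : DualF K F) : toLin (c • a) = c • toLin a := rfl

@[ext] theorem ext {a b : DualF K F} (h : ∀ f, toLin a f = toLin b f) : a = b :=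
  LinearMap.ext h

instance : SMul F (DualF K F) := ⟨fun h lam => ofLin (toLin lam ∘ₗ LinearMap.mulLeft K h)⟩

@[simp] theorem toLin_smul (h : F) (lam : DualF K F) (f : F) :
    toLin (h • lam) f = toLin lam (h * f) := rfl

instance : Module F (DualF K F) where
  one_smul lam := by ext f; simp
  mul_smul a b lam := by ext f; simp [mul_assoc, mul_comm a b]
  smul_zero a := by ext f; simp
  smul_add a x y := by ext f; simp
  add_smul a b lam := by ext f; simp [add_mul]
  zero_smul lam := by ext f; simp

instance : IsScalarTower K F (DualF K F) where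
  smul_assoc c h lam := by
    ext f
    rw [toLin_smul, toLin_smulK, LinearMap.smul_apply, toLin_smul, smul_mul_assoc,
      LinearMap.map_smul]

/-- evaluation at `1` -/
def evalOne : DualF K F →ₗ[K] K where
  toFun lam := toLin lam 1
  map_add' _ _ := rfl
  map_smul' _ _ := rfl

end DualF

/-! ### The valuation ring as a `K`-subspace, multiplication operators -/

/-- the valuation ring `O_v` as a `K`-subspace of `F` -/
def valSub (v : Place K F) : Submodule K F where
  carrier := {f | f ∈ v.toValuationSubring}
  zero_mem' := v.toValuationSubring.zero_mem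
  add_mem' := fun ha hb => v.toValuationSubring.add_mem _ _ ha hb
  smul_mem' := fun c f hf => by
    show c • f ∈ v.toValuationSubring
    rw [Algebra.smul_def]
    exact v.toValuationSubring.mul_mem _ _ (algebraMap_mem v c) hf

theorem mem_valSub {v : Place K F} {f : F} : f ∈ valSub v ↔ f ∈ v.toValuationSubring := Iff.rfl

/-- multiplication by `f`, as a `K`-linear endomorphism of `F` -/
abbrev mulE (f : F) : Module.End K F := LinearMap.mulLeft K f

theorem mulE_mul (f g : F) : mulE (K := K) (f * g) = mulE f * mulE g := by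
  ext h; simp

theorem mulE_add (f g : F) : mulE (K := K) (f + g) = mulE f + mulE g := by
  ext h; simp [add_mul]

theorem mulE_smul (c : K) (f : F) : mulE (K := K) (c • f) = c • mulE f := by
  ext h; simp

theorem mulE_one : mulE (K := K) (1 : F) = 1 := by
  ext h; simp

theorem mulE_algebraMap (c : K) : mulE (K := K) (algebraMap K F c) = c • (1 : Module.End K F) := by
  ext h; simp [Algebra.smul_def]

theorem mulE_commute (f g : F) : Commute (mulE (K := K) f) (mulE g) := by
  show mulE f * mulE g = mulE g * mulE f
  rw [← mulE_mul, ← mulE_mul, mul_comm]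

theorem mulE_stable {v : Place K F} {f : F} (hf : f ∈ v.toValuationSubring) :
    ∀ a ∈ valSub v, mulE (K := K) f a ∈ valSub v :=
  fun _ ha => v.toValuationSubring.mul_mem _ _ hf ha

section FunctionField

variable [IsAlgClosed K] {x : F} (hx : IsFunctionFieldGen K F x)
    [Algebra.IsSeparable (IntermediateField.adjoin K {x}) F] (v : Place K F)

include hx

/-- principal parts: an element with a pole of order at most `m` is, modulo `O_v`, a `K`-linear
combination of `t⁻¹, …, t⁻ᵐ` -/
theorem exists_principal_part {t : F} (ht : v.ord t = 1) (m : ℕ) :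
    ∀ g : F, OrdGE v g (-(m : ℤ)) →
      ∃ w ∈ Submodule.span K (Set.range fun i : Fin m => t⁻¹ ^ ((i : ℕ) + 1)),
        g - w ∈ v.toValuationSubring := by
  have ht0 : t ≠ 0 := by
    rintro rfl
    rw [v.ord_zero] at ht
    exact zero_ne_one ht
  induction m with
  | zero =>
    intro g hg
    refine ⟨0, Submodule.zero_mem _, ?_⟩
    rw [sub_zero]
    exact (ordGE_zero_iff_mem v).mp (by simpa using hg)
  | succ m ih =>
    intro g hg
    -- `t ^ (m+1) * g` is integral
    have h1 : OrdGE v (t ^ (m + 1) * g) 0 := by
      have htm : OrdGE v (t ^ (m + 1)) ((m : ℤ) + 1) := by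
        rw [ordGE_iff]
        right
        have := v.ord_zpow t ((m : ℤ) + 1)
        rw [ht, mul_one] at this
        rw [show t ^ (m + 1) = t ^ ((m : ℤ) + 1) by rw [← Nat.cast_succ, zpow_natCast], this]
      have := htm.mul v hg
      rw [show (m : ℤ) + 1 + -((m + 1 : ℕ) : ℤ) = 0 by push_cast; ring] at this
      exact this
    obtain ⟨c, hc⟩ := exists_const_ordGE_one hx v ((ordGE_zero_iff_mem v).mp h1)
    -- subtract `c t^{-(m+1)}`
    have h2 : OrdGE v (g - c • t⁻¹ ^ (m + 1)) (-(m : ℤ)) := by
      have htinv : OrdGE v (t⁻¹ ^ (m + 1)) (-((m : ℤ) + 1)) := by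
        rw [ordGE_iff]
        right
        have := v.ord_zpow t (-((m : ℤ) + 1))
        rw [ht, mul_one] at this
        rw [show t⁻¹ ^ (m + 1) = t ^ (-((m : ℤ) + 1)) by
          rw [zpow_neg, ← Nat.cast_succ, zpow_natCast, inv_pow], this]
      have := htinv.mul v hc
      rw [show -((m : ℤ) + 1) + 1 = -(m : ℤ) by ring] at this
      convert this using 1
      rw [Algebra.smul_def, mul_sub, ← mul_assoc, inv_pow, inv_mul_cancel₀ (pow_ne_zero _ ht0),
        one_mul, mul_comm]
    obtain ⟨w, hw, hgw⟩ := ih _ h2
    refine ⟨w + c • t⁻¹ ^ (m + 1), ?_, ?_⟩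
    · apply Submodule.add_mem
      · refine Submodule.span_mono ?_ hw
        rintro _ ⟨i, rfl⟩
        exact ⟨i.castSucc, rfl⟩
      · apply Submodule.smul_mem
        apply Submodule.subset_span
        exact ⟨Fin.last m, rfl⟩
    · rw [show g - (w + c • t⁻¹ ^ (m + 1)) = g - c • t⁻¹ ^ (m + 1) - w by ring]
      exact hgw

omit hx in
theorem exists_uniformizer : ∃ t : F, v.ord t = 1 := by
  obtain ⟨π, hπ⟩ := IsDiscreteValuationRing.exists_irreducible v.toValuationSubring
  exact ⟨π, v.ord_coe_irreducible hπ⟩

/-- multiplication by any `f : F` nearly stabilizes `O_v` -/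
theorem nearStab_mulE (f : F) : NearStab (valSub v) (mulE (K := K) f) := by
  obtain ⟨t, ht⟩ := exists_uniformizer v
  set m : ℕ := (-(v.ord f)).toNat with hm
  refine ⟨Submodule.span K (Set.range fun i : Fin m => t⁻¹ ^ ((i : ℕ) + 1)),
    FiniteDimensional.span_of_finite K (Set.finite_range _), ?_⟩
  rintro _ ⟨a, ha, rfl⟩
  have hfa : OrdGE v (f * a) (-(m : ℤ)) := by
    have h1 : OrdGE v f (-(m : ℤ)) := by
      rw [ordGE_iff]
      by_cases hf : f = 0
      · exact Or.inl hf
      · right; omega
    have h2 : OrdGE v a 0 := (ordGE_zero_iff_mem v).mpr ha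
    have := h1.mul v h2
    rwa [add_zero] at this
  obtain ⟨w, hw, hgw⟩ := exists_principal_part hx v ht m (f * a) hfa
  rw [Submodule.mem_sup]
  refine ⟨f * a - w, hgw, w, hw, ?_⟩
  rw [LinearMap.mulLeft_apply]
  ring

/-- `O_v / t O_v` is one dimensional -/
theorem finrank_quotient_uniformizer {t : F} (ht : v.ord t = 1) :
    FiniteDimensional K (↥(valSub v) ⧸ ((valSub v).map (mulE (K := K) t)).submoduleOf (valSub v)) ∧
    Module.finrank K (↥(valSub v) ⧸ ((valSub v).map (mulE (K := K) t)).submoduleOf (valSub v))
      = 1 := by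
  set N := ((valSub v).map (mulE (K := K) t)).submoduleOf (valSub v) with hN
  have ht0 : t ≠ 0 := by
    rintro rfl
    rw [v.ord_zero] at ht
    exact zero_ne_one ht
  have hmemN : ∀ a : ↥(valSub v), a ∈ N ↔ OrdGE v (a : F) 1 := by
    intro a
    rw [hN, Submodule.submoduleOf, Submodule.mem_comap, Submodule.subtype_apply, Submodule.mem_map]
    constructor
    · rintro ⟨b, hb, hba⟩
      rw [← hba, LinearMap.mulLeft_apply]
      have h1 : OrdGE v t 1 := (ordGE_iff v).mpr (Or.inr ht.ge)
      have h2 : OrdGE v b 0 := (ordGE_zero_iff_mem v).mpr hb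
      have := h1.mul v h2
      rwa [add_zero] at this
    · intro ha
      refine ⟨t⁻¹ * a, ?_, ?_⟩
      · have h1 : OrdGE v t⁻¹ (-1) := by
          rw [ordGE_iff]; right; rw [v.ord_inv, ht]
        have := h1.mul v ha
        rw [show (-1 : ℤ) + 1 = 0 by ring] at this
        exact (ordGE_zero_iff_mem v).mp this
      · rw [LinearMap.mulLeft_apply, ← mul_assoc, mul_inv_cancel₀ ht0, one_mul]
  -- the class of `1` spans the quotient
  have hone : (1 : F) ∈ valSub v := v.toValuationSubring.one_mem
  have hspan : ∀ q : ↥(valSub v) ⧸ N, ∃ c : K, c • (N.mkQ ⟨1, hone⟩) = q := by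
    intro q
    obtain ⟨a, rfl⟩ := N.mkQ_surjective q
    obtain ⟨c, hc⟩ := exists_const_ordGE_one hx v a.2
    refine ⟨c, ?_⟩
    rw [← map_smul, eq_comm, ← sub_eq_zero, ← map_sub, Submodule.mkQ_apply,
      Submodule.Quotient.mk_eq_zero, hmemN]
    convert hc using 2
    simp [Algebra.smul_def]
  have hne : N.mkQ ⟨1, hone⟩ ≠ 0 := by
    rw [Submodule.mkQ_apply, ne_eq, Submodule.Quotient.mk_eq_zero, hmemN]
    intro h
    rcases (ordGE_iff v).mp h with h0 | h0
    · exact one_ne_zero h0
    · rw [v.ord_one] at h0; omega
  have hfr : Module.finrank K (↥(valSub v) ⧸ N) = 1 :=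
    (finrank_eq_one_iff_of_nonzero' _ hne).mpr hspan
  exact ⟨Module.finite_of_finrank_eq_succ hfr, hfr⟩

end FunctionField

/-! ### The local residue -/

/-- `res_v (f dg)` -/
noncomputable def resPair (v : Place K F) (f g : F) : K :=
  tres (valSub v) (mulE (K := K) f) (mulE g)

section ResPair

variable [IsAlgClosed K] {x : F} (hx : IsFunctionFieldGen K F x)
    [Algebra.IsSeparable (IntermediateField.adjoin K {x}) F] (v : Place K F)

include hx

theorem resPair_add_left (f f' g : F) :
    resPair v (f + f') g = resPair v f g + resPair v f' g := by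
  rw [resPair, mulE_add]
  exact tres_add_left (nearStab_mulE hx v f) (nearStab_mulE hx v f') (nearStab_mulE hx v g)
    (mulE_commute f g) (mulE_commute f' g)

omit hx in
theorem resPair_smul_left (c : K) (f g : F) : resPair v (c • f) g = c * resPair v f g := by
  rw [resPair, mulE_smul]
  exact tres_smul_left c

theorem resPair_add_right (f g g' : F) :
    resPair v f (g + g') = resPair v f g + resPair v f g' := by
  rw [resPair, mulE_add]
  exact tres_add_right (nearStab_mulE hx v f) (nearStab_mulE hx v g) (nearStab_mulE hx v g')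
    (mulE_commute f g) (mulE_commute f g')

omit hx in
theorem resPair_smul_right (c : K) (f g : F) : resPair v f (c • g) = c * resPair v f g := by
  rw [resPair, mulE_smul]
  exact tres_smul_right c

omit hx in
theorem resPair_algebraMap_right (f : F) (c : K) : resPair v f (algebraMap K F c) = 0 := by
  rw [resPair, mulE_algebraMap]
  exact tres_scalar_right c

omit hx in
theorem resPair_one_right (f : F) : resPair v f 1 = 0 := by
  rw [← map_one (algebraMap K F)]
  exact resPair_algebraMap_right v f 1

theorem resPair_mul_right (f g h : F) :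
    resPair v f (g * h) = resPair v (f * g) h + resPair v (f * h) g := by
  rw [resPair, resPair, resPair, mulE_mul g h, mulE_mul f g, mulE_mul f h]
  exact tres_mul_right (nearStab_mulE hx v f) (nearStab_mulE hx v g) (nearStab_mulE hx v h)
    (mulE_commute f g) (mulE_commute f h) (mulE_commute g h)

omit hx in
/-- (R1) the residue of a regular differential vanishes -/
theorem resPair_eq_zero_of_mem {f g : F} (hf : f ∈ v.toValuationSubring)
    (hg : g ∈ v.toValuationSubring) : resPair v f g = 0 :=
  tres_eq_zero_of_stable (mulE_stable hf) (mulE_stable hg) (mulE_commute f g)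

/-- (R3) `res_v (dt / t) = 1` for a uniformizer `t` -/
theorem resPair_inv_uniformizer {t : F} (ht : v.ord t = 1) : resPair v t⁻¹ t = 1 := by
  have ht0 : t ≠ 0 := by
    rintro rfl
    rw [v.ord_zero] at ht
    exact zero_ne_one ht
  have htm : t ∈ v.toValuationSubring := mem_of_ord_nonneg v (by omega)
  obtain ⟨hfin, hrank⟩ := finrank_quotient_uniformizer hx v ht
  have h := tres_inv_self (A := valSub v) (g := mulE (K := K) t) (g' := mulE t⁻¹)
    (by rw [← mulE_mul, mul_inv_cancel₀ ht0, mulE_one])
    (by rw [← mulE_mul, inv_mul_cancel₀ ht0, mulE_one]) (mulE_stable htm) hfin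
  rw [hrank, Nat.cast_one] at h
  exact h

/-- the derivation `g ↦ (f ↦ res_v (f dg))` with values in `Hom_K(F, K)` -/
noncomputable def resDer : Derivation K F (DualF K F) where
  toFun g := DualF.ofLin
    { toFun := fun f => resPair v f g
      map_add' := fun f f' => resPair_add_left hx v f f' g
      map_smul' := fun c f => resPair_smul_left v c f g }
  map_add' g g' := by
    apply DualF.ext
    intro f
    exact resPair_add_right hx v f g g'
  map_smul' c g := by
    apply DualF.ext
    intro f
    exact resPair_smul_right v c f g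
  map_one_eq_zero' := by
    apply DualF.ext
    intro f
    exact resPair_one_right v f
  leibniz' g h := by
    apply DualF.ext
    intro f
    show resPair v f (g * h) = resPair v (g * f) h + resPair v (h * f) g
    rw [resPair_mul_right hx v f g h, mul_comm g f, mul_comm h f]

theorem resDer_apply (g f : F) : DualF.toLin (resDer hx v g) f = resPair v f g := rfl

/-- **the residue at `v`** of a Kähler differential -/
noncomputable def resPlace : Ω[F⁄K] →ₗ[K] K :=
  DualF.evalOne ∘ₗ ((resDer hx v).liftKaehlerDifferential.restrictScalars K)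

theorem resPlace_smul_D (f g : F) : resPlace hx v (f • D K F g) = resPair v f g := by
  show DualF.toLin ((resDer hx v).liftKaehlerDifferential (f • D K F g)) 1 = _
  rw [map_smul, Derivation.liftKaehlerDifferential_comp_D, DualF.toLin_smul, mul_one, resDer_apply]

/-- the residue of a differential which is regular at `v` vanishes -/
theorem resPlace_eq_zero_of_ordDifferential_nonneg (ω : Ω[F⁄K])
    (h : 0 ≤ v.ordDifferential ω) : resPlace hx v ω = 0 := by
  haveI := dCoordGenerates hx v
  obtain ⟨t, ht, htm, hdc⟩ := exists_uniformizer_dCoord v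
  have hω := v.differentialCoeff_smul_dCoord ω
  rw [hdc] at hω
  rw [← hω, resPlace_smul_D]
  exact resPair_eq_zero_of_mem v (mem_of_ord_nonneg v h) htm

/-- the residue of a differential with a simple pole at `v` is nonzero -/
theorem resPlace_ne_zero_of_ordDifferential_eq_neg_one (ω : Ω[F⁄K])
    (h : v.ordDifferential ω = -1) : resPlace hx v ω ≠ 0 := by
  haveI := dCoordGenerates hx v
  obtain ⟨t, ht, htm, hdc⟩ := exists_uniformizer_dCoord v
  have ht0 : t ≠ 0 := by
    rintro rfl
    rw [v.ord_zero] at ht
    exact zero_ne_one ht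
  have hω := v.differentialCoeff_smul_dCoord ω
  rw [hdc] at hω
  set hc := v.differentialCoeff ω with hhc
  have hord : v.ord hc = -1 := h
  have hc0 : hc ≠ 0 := by
    intro h0
    rw [h0, v.ord_zero] at hord
    omega
  -- `t * hc` is a unit, congruent to a nonzero constant `c`
  have h1 : v.ord (t * hc) = 0 := by rw [v.ord_mul ht0 hc0, ht, hord]; ring
  obtain ⟨c, hcc⟩ := exists_const_ordGE_one hx v (mem_of_ord_nonneg v h1.ge)
  have hcne : c ≠ 0 := by
    rintro rfl
    rw [map_zero, sub_zero] at hcc
    rcases (ordGE_iff v).mp hcc with h0 | h0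
    · exact mul_ne_zero ht0 hc0 h0
    · omega
  -- `hc = c t⁻¹ + r` with `r` regular
  set r := t⁻¹ * (t * hc - algebraMap K F c) with hr
  have hrm : r ∈ v.toValuationSubring := by
    have h2 : OrdGE v t⁻¹ (-1) := by
      rw [ordGE_iff]; right; rw [v.ord_inv, ht]
    have := h2.mul v hcc
    rw [show (-1 : ℤ) + 1 = 0 by ring] at this
    exact (ordGE_zero_iff_mem v).mp this
  have hdecomp : hc = c • t⁻¹ + r := by
    rw [hr, Algebra.smul_def, mul_sub, ← mul_assoc, inv_mul_cancel₀ ht0, one_mul]
    ring
  rw [← hω, resPlace_smul_D, hdecomp, resPair_add_left hx, resPair_smul_left,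
    resPair_inv_uniformizer hx v ht, resPair_eq_zero_of_mem v hrm htm, add_zero, mul_one]
  exact hcne

end ResPair

end Fermat.Agent.CurveP
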