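/-
P1 part C / RR-B (helper5): the bridge between Kähler differentials and Weil differentials, and the
final results of the Riemann-Roch project:

* `thetaOf hx ω` : the Weil differential `α ↦ ∑_v res_v (α_v ω)` attached to a Kähler
  differential `ω`;
* `hasCanonicalDivisor` : every nonzero Kähler differential has a divisor;
* `degree_divisor_differential` : `deg div ω = 2 g - 2`;
* `finrank_regularDifferentials` : `dim_K {ω | ∀ v, 0 ≤ ord_v ω} = g`;
* `genus_eq_genusR` : the Prelude's `AlgebraicCurve.genus` is `g = genusR K F = dim H¹(0)`.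
-/
import Mathlib
import Fermat.Agent.Lib.CurveP.ResidueGlobal
import Fermat.Agent.Lib.CurveP.WeilDiff

set_option autoImplicit false
set_option linter.unusedSectionVars false
set_option linter.style.haveILetI false

namespace Fermat.Agent.CurveP

open Fermat.Agent.Curve

open AlgebraicCurve KaehlerDifferential PlaceAux Tate

variable {K F : Type*} [Field K] [Field F] [Algebra K F] [IsAlgClosed K]
  {x : F} (hx : IsFunctionFieldGen K F x)
    [Algebra.IsSeparable (IntermediateField.adjoin K {x}) F]

include hx

/-! ### The Weil differential attached to a Kähler differential -/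

/-- `θ_ω (α) = ∑_v res_v (α_v ω)` -/
noncomputable def thetaOf (ω : Ω[F⁄K]) : ↥(adeleAll K F) →ₗ[K] K where
  toFun α := ∑ᶠ v : Place K F, resPlace hx v ((α : Rep K F) v • ω)
  map_add' α β := by
    rw [← finsum_add_distrib (finite_support_resPlace_smul hx ω α.2)
      (finite_support_resPlace_smul hx ω β.2)]
    refine finsum_congr fun v => ?_
    rw [Submodule.coe_add, Pi.add_apply, add_smul, map_add]
  map_smul' c α := by
    rw [RingHom.id_apply, smul_eq_mul, mul_finsum]
    refine finsum_congr fun v => ?_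
    rw [Submodule.coe_smul, Pi.smul_apply, smul_assoc, map_smul, smul_eq_mul]

theorem thetaOf_apply (ω : Ω[F⁄K]) (α : ↥(adeleAll K F)) :
    thetaOf hx ω α = ∑ᶠ v : Place K F, resPlace hx v ((α : Rep K F) v • ω) := rfl

/-- `f • θ_ω = θ_{f ω}` -/
theorem smulWeil_thetaOf (f : F) (ω : Ω[F⁄K]) :
    smulWeil hx f (thetaOf hx ω) = thetaOf hx (f • ω) := by
  ext α
  rw [smulWeil_apply, thetaOf_apply, thetaOf_apply]
  refine finsum_congr fun v => ?_
  rw [adeleMul_apply, smul_smul, mul_comm]

/-- `θ_ω` vanishes on the diagonal (residue theorem) -/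
theorem thetaOf_diag (ω : Ω[F⁄K]) (α : ↥(adeleAll K F)) (hα : (α : Rep K F) ∈ adeleDiag K F) :
    thetaOf hx ω α = 0 := by
  obtain ⟨f, hf⟩ := mem_adeleDiag.mp hα
  rw [thetaOf_apply, hf]
  exact finsum_resPlace_eq_zero hx (f • ω)

/-! ### Orders of differentials -/

theorem differentialCoeff_ne_zero (v : Place K F) {ω : Ω[F⁄K]} (hω : ω ≠ 0) :
    v.differentialCoeff ω ≠ 0 := by
  haveI := dCoordGenerates hx v
  intro h0
  have h1 := v.differentialCoeff_smul_dCoord ω
  rw [h0, zero_smul] at h1
  exact hω h1.symm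

theorem ordDifferential_smul' (v : Place K F) {f : F} (hf : f ≠ 0) {ω : Ω[F⁄K]} (hω : ω ≠ 0) :
    v.ordDifferential (f • ω) = v.ord f + v.ordDifferential ω := by
  haveI := dCoordGenerates hx v
  haveI := nontrivial_kaehler_of_place hx v
  exact v.ordDifferential_smul hf (differentialCoeff_ne_zero hx v hω)

/-- a local adele with a prescribed simple pole of `α_v ω` at `v` -/
theorem exists_single_resPlace_ne_zero (v : Place K F) {ω : Ω[F⁄K]} (hω : ω ≠ 0) :
    ∃ a : F, a ≠ 0 ∧ v.ord a = -(v.ordDifferential ω) - 1 ∧ resPlace hx v (a • ω) ≠ 0 := by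
  obtain ⟨t, ht⟩ := exists_uniformizer v
  have ht0 : t ≠ 0 := by
    rintro rfl
    rw [v.ord_zero] at ht
    exact zero_ne_one ht
  set k := v.ordDifferential ω with hk
  have ha0 : t ^ (-k - 1) ≠ 0 := zpow_ne_zero _ ht0
  have hord : v.ord (t ^ (-k - 1)) = -k - 1 := by rw [v.ord_zpow, ht, mul_one]
  refine ⟨t ^ (-k - 1), ha0, hord, ?_⟩
  apply resPlace_ne_zero_of_ordDifferential_eq_neg_one
  rw [ordDifferential_smul' hx v ha0 hω, hord, ← hk]
  ring

/-- `θ_ω` vanishes on `A(D)` if `D ≤ div ω` -/
theorem thetaOf_adeleOf {ω : Ω[F⁄K]} (hω : ω ≠ 0) (D : Divisor K F)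
    (hD : ∀ v : Place K F, D v ≤ v.ordDifferential ω) (α : ↥(adeleAll K F))
    (hα : (α : Rep K F) ∈ adeleOf D) : thetaOf hx ω α = 0 := by
  rw [thetaOf_apply]
  apply finsum_eq_zero_of_forall_eq_zero
  intro v
  rcases (mem_adeleOf_iff.mp hα) v with h0 | h0
  · rw [h0, zero_smul, map_zero]
  · by_cases ha : (α : Rep K F) v = 0
    · rw [ha, zero_smul, map_zero]
    apply resPlace_eq_zero_of_ordDifferential_nonneg
    rw [ordDifferential_smul' hx v ha hω]
    have := hD v
    omega

theorem isWeilDiff_thetaOf {ω : Ω[F⁄K]} (hω : ω ≠ 0) (D : Divisor K F)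
    (hD : ∀ v : Place K F, D v ≤ v.ordDifferential ω) : IsWeilDiff (thetaOf hx ω) D := by
  intro α hα
  obtain ⟨a, ha, b, hb, hab⟩ := Submodule.mem_sup.mp hα
  have haA : a ∈ adeleAll K F := adeleOf_le_adeleAll D ha
  have hbA : b ∈ adeleAll K F := adeleDiag_le_adeleAll hx hb
  have hsum : α = ⟨a, haA⟩ + ⟨b, hbA⟩ := Subtype.ext hab.symm
  rw [hsum, map_add, thetaOf_adeleOf hx hω D hD ⟨a, haA⟩ ha, thetaOf_diag hx ω ⟨b, hbA⟩ hb,
    add_zero]

/-- the value of `θ_ω` on an adele supported at one place -/
theorem thetaOf_single [DecidableEq (Place K F)] (ω : Ω[F⁄K]) (v : Place K F) (a : F) :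
    thetaOf hx ω (adeleSingle v a) = resPlace hx v (a • ω) := by
  rw [thetaOf_apply, finsum_eq_single _ v]
  · rw [adeleSingle_apply, if_pos rfl]
  · intro w hw
    rw [adeleSingle_apply, if_neg hw, zero_smul, map_zero]

/-- if `θ_ω` has level `D` then `D ≤ div ω` -/
theorem le_ordDifferential_of_isWeilDiff {ω : Ω[F⁄K]} (hω : ω ≠ 0) {D : Divisor K F}
    (h : IsWeilDiff (thetaOf hx ω) D) (v : Place K F) : D v ≤ v.ordDifferential ω := by
  classical
  by_contra hlt
  push Not at hlt
  obtain ⟨a, ha0, hord, hres⟩ := exists_single_resPlace_ne_zero hx v hω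
  apply hres
  rw [← thetaOf_single hx ω v a]
  apply h
  apply Submodule.mem_sup_left
  rw [mem_adeleOf_iff]
  intro w
  rw [adeleSingle_apply]
  split_ifs with hw
  · right
    rw [hw, hord]
    omega
  · left; rfl

theorem thetaOf_ne_zero {ω : Ω[F⁄K]} (hω : ω ≠ 0) : thetaOf hx ω ≠ 0 := by
  classical
  obtain ⟨v⟩ := exists_place hx
  obtain ⟨a, ha0, hord, hres⟩ := exists_single_resPlace_ne_zero hx v hω
  intro h0
  apply hres
  rw [← thetaOf_single hx ω v a, h0, LinearMap.zero_apply]

/-! ### The divisor of a Kähler differential -/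

theorem ordDifferential_zero (v : Place K F) : v.ordDifferential (0 : Ω[F⁄K]) = 0 := by
  haveI := dCoordGenerates hx v
  haveI := nontrivial_kaehler_of_place hx v
  rw [Place.ordDifferential, v.differentialCoeff_zero, v.ord_zero]

/-- a differential has finitely many poles -/
theorem finite_poles_differential (ω : Ω[F⁄K]) :
    {v : Place K F | v.ordDifferential ω < 0}.Finite := by
  obtain ⟨h, rfl⟩ := exists_eq_smul_D hx ω
  refine ((finite_poles_of hx h).union (finite_poles_of hx x)).subset fun v hv => ?_
  simp only [Set.mem_ofPred_eq] at hv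
  by_cases hh : h = 0
  · rw [hh, zero_smul, ordDifferential_zero hx] at hv
    exact absurd hv (lt_irrefl _)
  have hdx : D K F x ≠ 0 := D_gen_ne_zero hx v
  rw [ordDifferential_smul' hx v hh hdx] at hv
  simp only [Set.mem_union, Set.mem_ofPred_eq]
  by_contra hcon
  push Not at hcon
  have h2 := ordDifferential_D_gen_nonneg hx v (not_lt.mpr hcon.2)
  omega

/-- a nonzero differential has finitely many zeros -/
theorem finite_zeros_differential {ω : Ω[F⁄K]} (hω : ω ≠ 0) :
    {v : Place K F | 0 < v.ordDifferential ω}.Finite := by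
  classical
  by_contra hinf
  rw [← Set.Infinite] at hinf
  obtain ⟨c, hc⟩ := exists_forall_adeleH1_eq_zero hx
  -- the polar part of the divisor of `ω`
  have hPfin : (Function.support fun v : Place K F => min 0 (v.ordDifferential ω)).Finite := by
    refine (finite_poles_differential hx ω).subset fun v hv => ?_
    simp only [Function.mem_support, ne_eq] at hv
    simp only [Set.mem_ofPred_eq]
    by_contra h
    apply hv
    rw [min_eq_left]
    omega
  set DP : Divisor K F := Finsupp.ofSupportFinite _ hPfin with hDP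
  have hDPv : ∀ v, DP v = min 0 (v.ordDifferential ω) := fun v => rfl
  obtain ⟨T, hTsub, hTcard⟩ := hinf.exists_subset_card_eq (c - Divisor.degree DP).toNat
  set D : Divisor K F := DP + ∑ v ∈ T, Finsupp.single v 1 with hD
  have hDv : ∀ v, D v = DP v + if v ∈ T then 1 else 0 := by
    intro v
    rw [hD, Finsupp.add_apply, Finsupp.finsetSum_apply]
    congr 1
    simp only [Finsupp.single_apply]
    split_ifs with h
    · rw [Finset.sum_eq_single_of_mem v h (fun b _ hb => if_neg hb), if_pos rfl]
    · exact Finset.sum_eq_zero fun w hw => if_neg (fun hwv : w = v => h (hwv ▸ hw))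
  have hDle : ∀ v : Place K F, D v ≤ v.ordDifferential ω := by
    intro v
    rw [hDv, hDPv]
    split_ifs with h
    · have : 0 < v.ordDifferential ω := hTsub h
      rw [min_eq_left this.le]
      omega
    · rw [add_zero]
      exact min_le_right _ _
  have hdeg : c ≤ Divisor.degree D := by
    rw [hD, map_add, map_sum]
    have : ∀ v ∈ T, Divisor.degree (Finsupp.single v (1 : ℤ)) = 1 := by
      intro v _
      rw [Divisor.degree_single, deg_eq_one hx v]
      simp
    rw [Finset.sum_congr rfl this, Finset.sum_const, hTcard, nsmul_eq_mul, mul_one]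
    have := Int.self_le_toNat (c - Divisor.degree DP)
    omega
  -- `H¹(D) = 0`
  have h0 := hc D hdeg
  haveI := finite_adeleH1 hx D
  have hsub : Subsingleton (AdeleH1 D) := Module.finrank_zero_iff.mp h0
  have htop : (adeleSum D).submoduleOf (adeleAll K F) = ⊤ :=
    Submodule.Quotient.subsingleton_iff.mp hsub
  apply thetaOf_ne_zero hx hω
  ext α
  rw [LinearMap.zero_apply]
  apply isWeilDiff_thetaOf hx hω D hDle
  have : α ∈ (adeleSum D).submoduleOf (adeleAll K F) := by rw [htop]; trivial
  exact this

/-- the divisor of a Kähler differential -/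
noncomputable def divDiff (ω : Ω[F⁄K]) : Divisor K F :=
  open Classical in
  if hω : ω ≠ 0 then
    Finsupp.ofSupportFinite (fun v : Place K F => v.ordDifferential ω) <| by
      refine ((finite_poles_differential hx ω).union (finite_zeros_differential hx hω)).subset
        fun v hv => ?_
      simp only [Function.mem_support, ne_eq] at hv
      simp only [Set.mem_union, Set.mem_ofPred_eq]
      omega
  else 0

theorem divDiff_apply {ω : Ω[F⁄K]} (hω : ω ≠ 0) (v : Place K F) :
    divDiff hx ω v = v.ordDifferential ω := by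
  rw [divDiff, dif_pos hω]
  rfl

/-- **every nonzero Kähler differential has a divisor** -/
theorem hasCanonicalDivisor : HasCanonicalDivisor (K := K) (F := F) :=
  ⟨fun ω hω => ⟨divDiff hx ω, fun v => divDiff_apply hx hω v⟩⟩

/-! ### The canonical pair and the main theorems -/

theorem isWeilDiff_smulWeil_thetaOf_iff {ω : Ω[F⁄K]} (hω : ω ≠ 0) {f : F} (hf : f ≠ 0)
    (D : Divisor K F) :
    IsWeilDiff (smulWeil hx f (thetaOf hx ω)) D ↔ D ≤ divDiff hx ω + divOf hx f := by
  have hfω : f • ω ≠ 0 := smul_ne_zero hf hω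
  rw [smulWeil_thetaOf, Finsupp.le_def]
  have hval : ∀ v : Place K F, (divDiff hx ω + divOf hx f) v = v.ordDifferential (f • ω) := by
    intro v
    rw [Finsupp.add_apply, divDiff_apply hx hω, divOf_apply hx hf, ordDifferential_smul' hx v hf hω]
    ring
  constructor
  · intro h v
    rw [hval]
    exact le_ordDifferential_of_isWeilDiff hx hfω h v
  · intro h
    apply isWeilDiff_thetaOf hx hfω
    intro v
    rw [← hval]
    exact h v

/-- `ℓ(div ω) = g` -/
theorem ell_divDiff {ω : Ω[F⁄K]} (hω : ω ≠ 0) : ell (divDiff hx ω) = genusR K F :=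
  ell_canonical hx (thetaOf_ne_zero hx hω)
    (fun _ hf D => isWeilDiff_smulWeil_thetaOf_iff hx hω hf D)

/-- `deg div ω = 2g - 2` -/
theorem degree_divDiff {ω : Ω[F⁄K]} (hω : ω ≠ 0) :
    Divisor.degree (divDiff hx ω) = 2 * (genusR K F : ℤ) - 2 :=
  degree_canonical_weil hx (thetaOf_ne_zero hx hω)
    (fun _ hf D => isWeilDiff_smulWeil_thetaOf_iff hx hω hf D)

/-- **the degree of the divisor of any nonzero Kähler differential is `2g - 2`** -/
theorem degree_divisor_differential {ω : Ω[F⁄K]} (hω : ω ≠ 0) (Dv : Divisor K F)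
    (hD : ∀ v : Place K F, Dv v = v.ordDifferential ω) :
    Divisor.degree Dv = 2 * (genusR K F : ℤ) - 2 := by
  have : Dv = divDiff hx ω := by
    ext v
    rw [hD v, divDiff_apply hx hω]
  rw [this, degree_divDiff hx hω]

/-- the Prelude's genus (defined through the degree of a canonical divisor) is the Riemann genus
`g = dim H¹(0)` -/
theorem genus_eq_genusR [HasCanonicalDivisor (K := K) (F := F)] :
    AlgebraicCurve.genus K F = genusR K F := by
  obtain ⟨v⟩ := exists_place hx
  have hex : ∃ ω : Ω[F⁄K], ω ≠ 0 := ⟨D K F x, D_gen_ne_zero hx v⟩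
  rw [AlgebraicCurve.genus, dif_pos hex,
    degree_divisor_differential hx hex.choose_spec _ (canonicalDivisorOf_apply hex.choose_spec)]
  omega

/-- the space of regular (holomorphic) differentials -/
def regularDifferentials : Submodule K Ω[F⁄K] where
  carrier := {ω | ∀ v : Place K F, 0 ≤ v.ordDifferential ω}
  zero_mem' := fun v => by rw [ordDifferential_zero hx]
  add_mem' := by
    intro ω ω' h h' v
    haveI := dCoordGenerates hx v
    haveI := nontrivial_kaehler_of_place hx v
    have hc : v.differentialCoeff (ω + ω') = v.differentialCoeff ω + v.differentialCoeff ω' := by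
      apply v.differentialCoeff_unique
      rw [add_smul, v.differentialCoeff_smul_dCoord, v.differentialCoeff_smul_dCoord]
    rw [Place.ordDifferential, hc]
    apply ord_nonneg_of_mem
    exact v.toValuationSubring.add_mem _ _ (mem_of_ord_nonneg v (h v)) (mem_of_ord_nonneg v (h' v))
  smul_mem' := by
    intro c ω h v
    haveI := dCoordGenerates hx v
    haveI := nontrivial_kaehler_of_place hx v
    have hc : v.differentialCoeff (c • ω) = algebraMap K F c * v.differentialCoeff ω := by
      rw [← v.differentialCoeff_smul, algebraMap_smul]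
    rw [Place.ordDifferential, hc]
    apply ord_nonneg_of_mem
    exact v.toValuationSubring.mul_mem _ _ (algebraMap_mem v c) (mem_of_ord_nonneg v (h v))

theorem mem_regularDifferentials {ω : Ω[F⁄K]} :
    ω ∈ regularDifferentials hx ↔ ∀ v : Place K F, 0 ≤ v.ordDifferential ω := Iff.rfl

/-- **the space of regular differentials has dimension `g`** -/
theorem finrank_regularDifferentials :
    Module.finrank K ↥(regularDifferentials hx) = genusR K F := by
  obtain ⟨v0⟩ := exists_place hx
  set ω0 : Ω[F⁄K] := D K F x with hω0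
  have hω0ne : ω0 ≠ 0 := D_gen_ne_zero hx v0
  rw [← ell_divDiff hx hω0ne, ell]
  -- the map `f ↦ f • ω0` from `L(div ω0)` to the regular differentials
  have hmem : ∀ f : F, f ∈ riemannRochSpace (divDiff hx ω0) ↔ f • ω0 ∈ regularDifferentials hx := by
    intro f
    rw [mem_riemannRochSpace_iff, mem_regularDifferentials]
    refine forall_congr' fun v => ?_
    by_cases hf : f = 0
    · rw [hf, zero_smul, ordDifferential_zero hx]
      simp
    · rw [ordDifferential_smul' hx v hf hω0ne, divDiff_apply hx hω0ne]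
      constructor
      · rintro (h | h)
        · exact absurd h hf
        · omega
      · intro h; right; omega
  let φ : ↥(riemannRochSpace (divDiff hx ω0)) →ₗ[K] ↥(regularDifferentials hx) :=
    { toFun := fun f => ⟨(f : F) • ω0, (hmem f).mp f.2⟩
      map_add' := fun f g => by
        apply Subtype.ext
        show ((f : F) + (g : F)) • ω0 = (f : F) • ω0 + (g : F) • ω0
        rw [add_smul]
      map_smul' := fun c f => by
        apply Subtype.ext
        show (c • (f : F)) • ω0 = c • ((f : F) • ω0)
        rw [smul_assoc] }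
  have hinj : Function.Injective φ := by
    intro f g hfg
    have h1 : (f : F) • ω0 = (g : F) • ω0 := congrArg Subtype.val hfg
    apply Subtype.ext
    rw [← sub_eq_zero, ← sub_smul] at h1
    rcases smul_eq_zero.mp h1 with h2 | h2
    · exact sub_eq_zero.mp h2
    · exact absurd h2 hω0ne
  have hsurj : Function.Surjective φ := by
    intro ω
    obtain ⟨h, hh⟩ := exists_eq_smul_D hx (ω : Ω[F⁄K])
    refine ⟨⟨h, (hmem h).mpr (by rw [← hh]; exact ω.2)⟩, ?_⟩
    apply Subtype.ext
    exact hh.symm
  exact (LinearEquiv.ofBijective φ ⟨hinj, hsurj⟩).finrank_eq.symm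

/-! ### User-facing forms of Riemann-Roch -/

/-- **Riemann-Roch**, with the divisor of a nonzero Kähler differential as canonical divisor:
`ℓ(D) = deg D + 1 - g + ℓ(div ω - D)` -/
theorem riemannRoch_divDiff {ω : Ω[F⁄K]} (hω : ω ≠ 0) (D : Divisor K F) :
    (ell D : ℤ) = Divisor.degree D + 1 - genusR K F + ell (divDiff hx ω - D) :=
  riemannRoch hx (thetaOf_ne_zero hx hω)
    (fun _ hf D => isWeilDiff_smulWeil_thetaOf_iff hx hω hf D) D

/-- `ℓ(D) = 0` if `deg D < 0` -/
theorem ell_eq_zero_of_degree_neg {D : Divisor K F} (h : Divisor.degree D < 0) : ell D = 0 := by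
  rw [ell, riemannRochSpace_eq_bot hx h]
  exact finrank_bot K F

/-- `ℓ(E) = deg E + 1 - g` if `deg E > 2g - 2` -/
theorem ell_eq_of_degree_gt {E : Divisor K F}
    (h : 2 * (genusR K F : ℤ) - 2 < Divisor.degree E) :
    (ell E : ℤ) = Divisor.degree E + 1 - genusR K F := by
  obtain ⟨v⟩ := exists_place hx
  have hω : D K F x ≠ 0 := D_gen_ne_zero hx v
  have h1 := riemannRoch_divDiff hx hω E
  have h2 : ell (divDiff hx (D K F x) - E) = 0 := by
    apply ell_eq_zero_of_degree_neg hx
    rw [map_sub, degree_divDiff hx hω]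
    omega
  rw [h2] at h1
  push_cast at h1
  linarith

/-- Riemann's inequality `ℓ(D) ≥ deg D + 1 - g` -/
theorem le_ell (D : Divisor K F) : Divisor.degree D + 1 - genusR K F ≤ (ell D : ℤ) :=
  WeilAux.riemann_inequality hx D

end Fermat.Agent.CurveP
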